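import Mathlib

/-!
# S36/Val/Basic : general lemmas on valuation subrings (pure Mathlib)

* `exists_valuationSubring_of_ringHom` : Chevalley's extension theorem in the form we use.
* `exists_extension` : a valuation subring extends along a field embedding.
* `ResIndep OE O b` : the family `b` of elements of `O` has `κ(OE)`-linearly independent residues.
  Consequences: `O` is the "Gauss norm unit ball" with respect to `b`; uniqueness of the extension
  if `b` spans.
-/

set_option autoImplicit false

namespace Fermat.Agent.S36.Val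

variable {F : Type*} [Field F]

/-- nonunits of a valuation subring in terms of the inverse. -/
theorem Basic_mem_nonunits_iff (O : ValuationSubring F) (x : F) :
    x ∈ O.nonunits ↔ x = 0 ∨ x⁻¹ ∉ O := by
  have := O.inv_mem_nonunits_iff (x := x⁻¹)
  rwa [inv_inv, inv_eq_zero] at this

theorem Basic_mem_nonunits_iff_not_isUnit (O : ValuationSubring F) (x : F) (hx : x ∈ O) :
    x ∈ O.nonunits ↔ ¬ IsUnit (⟨x, hx⟩ : O) := by
  rw [ValuationSubring.mem_nonunits_iff_exists_mem_maximalIdeal]
  constructor
  · rintro ⟨_, h⟩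
    exact (IsLocalRing.mem_maximalIdeal _).1 h
  · intro h
    exact ⟨hx, (IsLocalRing.mem_maximalIdeal _).2 h⟩

/-- **Chevalley.**  `R` a subring of the field `F`, `φ : R → D` a ring homomorphism to a domain.
There is a valuation subring `O ⊇ R` of `F` whose maximal ideal meets `R` in `ker φ`.
PROOF.  `P := RingHom.ker φ` is prime; `LocalSubring.ofPrime R P`,
`LocalSubring.exists_le_valuationSubring`, `LocalSubring.le_ofPrime`; compare the Mathlib proof of
`Ideal.image_subset_nonunits_valuationSubring`.  For `x ∉ P`, `x` is a unit of `ofPrime R P`, hence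
of `O`. -/
theorem exists_valuationSubring_of_ringHom {D : Type*} [CommRing D] [IsDomain D] (R : Subring F)
    (φ : R →+* D) :
    ∃ O : ValuationSubring F, R ≤ O.toSubring ∧ ∀ x : R, (x : F) ∈ O.nonunits ↔ φ x = 0 := by
  have hP : (RingHom.ker φ).IsPrime := RingHom.ker_isPrime φ
  obtain ⟨V, hV⟩ := (LocalSubring.ofPrime R (RingHom.ker φ)).exists_le_valuationSubring
  have hRV : R ≤ V.toSubring := (LocalSubring.le_ofPrime ..).trans hV.1
  refine ⟨V, hRV, fun x => ?_⟩
  have h1 : IsUnit (algebraMap R (LocalSubring.ofPrime R (RingHom.ker φ)).toSubring x) ↔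
      x ∈ (RingHom.ker φ).primeCompl :=
    IsLocalization.AtPrime.isUnit_to_map_iff _ (RingHom.ker φ) x
  have h2 : IsUnit (algebraMap R (LocalSubring.ofPrime R (RingHom.ker φ)).toSubring x) ↔
      IsUnit (⟨x, hRV x.2⟩ : V) := by
    constructor
    · intro h
      exact h.map (Subring.inclusion hV.1)
    · intro h
      exact hV.2.map_nonunit _ h
  rw [Basic_mem_nonunits_iff_not_isUnit V x (hRV x.2), ← h2, h1]
  simp [Ideal.primeCompl, RingHom.mem_ker]

/-- A valuation subring extends along a field embedding.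
PROOF.  Apply `exists_valuationSubring_of_ringHom` to `R := OE.toSubring.map ι` and
`φ := residue ∘ (ι restricted)⁻¹`.  If `ι x ∈ O` and `x ∉ OE` then `x⁻¹` is a nonunit of `OE`, so
`ι x⁻¹ ∈ O.nonunits`, and `1 = ι x * ι x⁻¹ ∈ O.nonunits`: contradiction. -/
theorem exists_extension {E : Type*} [Field E] (ι : E →+* F) (OE : ValuationSubring E) :
    ∃ O : ValuationSubring F, O.comap ι = OE := by
  let e : OE.toSubring ≃+* OE.toSubring.map ι := OE.toSubring.equivMapOfInjective ι ι.injective
  let φ : OE.toSubring.map ι →+* IsLocalRing.ResidueField OE :=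
    (IsLocalRing.residue OE).comp (e.symm : OE.toSubring.map ι →+* OE.toSubring)
  obtain ⟨O, hRO, hO⟩ := exists_valuationSubring_of_ringHom (OE.toSubring.map ι) φ
  refine ⟨O, ?_⟩
  ext x
  rw [ValuationSubring.mem_comap]
  constructor
  · intro hx
    by_contra hxE
    have hx0 : x ≠ 0 := by
      rintro rfl
      exact hxE OE.zero_mem
    have hinv : x⁻¹ ∈ OE := (OE.mem_or_inv_mem x).resolve_left hxE
    have hnon : x⁻¹ ∈ OE.nonunits := OE.inv_mem_nonunits_iff.2 (Or.inr hxE)
    have hφ : φ (e ⟨x⁻¹, hinv⟩) = 0 := by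
      show IsLocalRing.residue OE (e.symm (e ⟨x⁻¹, hinv⟩)) = 0
      rw [RingEquiv.symm_apply_apply, IsLocalRing.residue_eq_zero_iff]
      obtain ⟨_, h⟩ := ValuationSubring.mem_nonunits_iff_exists_mem_maximalIdeal.1 hnon
      exact h
    have h3 := (hO (e ⟨x⁻¹, hinv⟩)).2 hφ
    have h4 : ((e ⟨x⁻¹, hinv⟩ : OE.toSubring.map ι) : F) = (ι x)⁻¹ := by
      rw [← map_inv₀]
      rfl
    rw [h4, O.inv_mem_nonunits_iff] at h3
    rcases h3 with h3 | h3
    · exact hx0 ((map_eq_zero ι).1 h3)
    · exact h3 hx
  · intro hx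
    exact hRO ⟨x, hx, rfl⟩

/-- nonunits of the comap. -/
theorem mem_nonunits_comap_iff {E : Type*} [Field E] (ι : E →+* F) (O : ValuationSubring F) (x : E) :
    x ∈ (O.comap ι).nonunits ↔ ι x ∈ O.nonunits := by
  rw [Basic_mem_nonunits_iff, Basic_mem_nonunits_iff, ValuationSubring.mem_comap, map_inv₀,
    map_eq_zero]

/-- A root of a monic polynomial with coefficients in `O` lies in `O`; elementary form. -/
theorem mem_of_monic_root (O : ValuationSubring F) (n : ℕ) (γ : ℕ → F) (hγ : ∀ i, γ i ∈ O) (a : F)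
    (ha : a ^ (n + 1) + ∑ i ∈ Finset.range (n + 1), γ i * a ^ i = 0) : a ∈ O := by
  rw [← O.valuation_le_one_iff]
  by_contra hcon
  push Not at hcon
  have hne : O.valuation a ^ (n + 1) ≠ 0 := by
    apply pow_ne_zero
    exact (lt_trans zero_lt_one hcon).ne'
  have hlt : O.valuation (∑ i ∈ Finset.range (n + 1), γ i * a ^ i) < O.valuation a ^ (n + 1) := by
    apply O.valuation.map_sum_lt hne
    intro i hi
    rw [map_mul, map_pow]
    have h1 : O.valuation (γ i) ≤ 1 := (O.valuation_le_one_iff _).2 (hγ i)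
    calc O.valuation (γ i) * O.valuation a ^ i ≤ O.valuation a ^ i := mul_le_of_le_one_left' h1
      _ < O.valuation a ^ (n + 1) := pow_lt_pow_right₀ hcon (Finset.mem_range.1 hi)
  have heq : a ^ (n + 1) = -∑ i ∈ Finset.range (n + 1), γ i * a ^ i := by
    linear_combination ha
  have : O.valuation (a ^ (n + 1)) = O.valuation (∑ i ∈ Finset.range (n + 1), γ i * a ^ i) := by
    rw [heq, Valuation.map_neg]
  rw [map_pow] at this
  exact absurd this hlt.ne'

section Poly

open Polynomial

variable {K : Type*} [Field K]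

/-- A polynomial over `K` with coefficients in `A`. -/
def IntPoly (A : ValuationSubring K) (G : K[X]) : Prop := ∀ i, G.coeff i ∈ A

/-- A polynomial over `K` with coefficients in `A`, not all in the maximal ideal. -/
def PrimPoly (A : ValuationSubring K) (G : K[X]) : Prop :=
  IntPoly A G ∧ ∃ i, G.coeff i ∉ A.nonunits

end Poly

section ResIndep

variable {E : Type*} [Field E] [Algebra E F] {ι : Type*} [Fintype ι]

/-- The elements `b i ∈ O` have linearly independent residues over the residue field of `OE`. -/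
def ResIndep (OE : ValuationSubring E) (O : ValuationSubring F) (b : ι → F) : Prop :=
  (∀ i, b i ∈ O) ∧ ∀ c : ι → E, (∀ i, c i ∈ OE) → ∑ i, c i • b i ∈ O.nonunits →
    ∀ i, c i ∈ OE.nonunits

end ResIndep

end Fermat.Agent.S36.Val
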