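import Fermat.Agent.S36.Val.Basic
import Fermat.Agent.GAL.RED.Defs

/-!
# S36/Val/ValOver : a valuation subring of `F` over `A ⊆ K`, and its canonical `RedData`
(with the honest residue field as `Fb`).
-/

set_option autoImplicit false

namespace Fermat.Agent.S36.Val

open Fermat.Agent.GAL.RED

variable {K : Type*} [Field K]

/-- A valuation subring of `F` lying over the valuation subring `A` of `K`. -/
structure ValOver (A : ValuationSubring K) (F : Type*) [Field F] [Algebra K F] where
  /-- the valuation subring -/
  O : ValuationSubring F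
  comap_eq : O.comap (algebraMap K F) = A

variable {A : ValuationSubring K} {F : Type*} [Field F] [Algebra K F]

namespace ValOver

variable (V : ValOver A F)

/-- The residue field. -/
def Res : Type _ := IsLocalRing.ResidueField ↥V.O

noncomputable instance : Field V.Res := inferInstanceAs (Field (IsLocalRing.ResidueField ↥V.O))

theorem algebraMap_mem {a : K} (ha : a ∈ A) : algebraMap K F a ∈ V.O := by
  have h : a ∈ V.O.comap (algebraMap K F) := by rw [V.comap_eq]; exact ha
  exact h

theorem algebraMap_mem_iff {a : K} : algebraMap K F a ∈ V.O ↔ a ∈ A := by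
  constructor
  · intro h
    have h' : a ∈ V.O.comap (algebraMap K F) := h
    rwa [V.comap_eq] at h'
  · exact V.algebraMap_mem

/-- The inclusion `A → O`. -/
def incl : ↥A →+* ↥V.O where
  toFun a := ⟨algebraMap K F a, V.algebraMap_mem a.2⟩
  map_one' := Subtype.ext (map_one _)
  map_mul' _ _ := Subtype.ext (map_mul _ _ _)
  map_zero' := Subtype.ext (map_zero _)
  map_add' _ _ := Subtype.ext (map_add _ _ _)

instance : IsLocalHom V.incl := by
  constructor
  intro a ha
  obtain ⟨⟨b, hb⟩, hab⟩ := isUnit_iff_exists_inv.mp ha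
  have h1 : algebraMap K F (a : K) * b = 1 := congrArg Subtype.val hab
  have ha0 : (a : K) ≠ 0 := by
    intro h0
    rw [h0, map_zero, zero_mul] at h1
    exact zero_ne_one h1
  have hb' : b = algebraMap K F (a : K)⁻¹ := by
    rw [map_inv₀]
    exact eq_inv_of_mul_eq_one_right h1
  have hinv : (a : K)⁻¹ ∈ A := by
    rw [← V.algebraMap_mem_iff, ← hb']
    exact hb
  exact isUnit_iff_exists_inv.mpr ⟨⟨_, hinv⟩, Subtype.ext (mul_inv_cancel₀ ha0)⟩

noncomputable instance : Algebra (IsLocalRing.ResidueField ↥A) V.Res :=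
  (IsLocalRing.ResidueField.map V.incl).toAlgebra

/-- The residue map. -/
noncomputable def res : ↥V.O →+* V.Res := IsLocalRing.residue ↥V.O

theorem res_surjective : Function.Surjective V.res := IsLocalRing.residue_surjective

theorem res_incl (a : ↥A) :
    V.res (V.incl a) = algebraMap (IsLocalRing.ResidueField ↥A) V.Res (IsLocalRing.residue ↥A a) :=
  rfl

/-- The canonical reduction datum. -/
noncomputable def redData : RedData K F (IsLocalRing.ResidueField ↥A) V.Res where
  A := A
  O := V.O
  resA := IsLocalRing.residue ↥A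
  res := V.res
  resA_surjective := IsLocalRing.residue_surjective
  res_surjective := V.res_surjective
  algebraMap_mem := fun _ ha => V.algebraMap_mem ha
  res_algebraMap := fun a ha => V.res_incl ⟨a, ha⟩

/-- The reduction map `F → Res`, `0` outside `O`. -/
noncomputable def red (f : F) : V.Res := V.redData.red f

theorem red_of_mem {f : F} (hf : f ∈ V.O) : V.red f = V.res ⟨f, hf⟩ :=
  V.redData.red_of_mem hf

theorem red_eq_zero_iff {f : F} (hf : f ∈ V.O) : V.red f = 0 ↔ f ∈ V.O.nonunits := by
  rw [V.red_of_mem hf]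
  show IsLocalRing.residue ↥V.O ⟨f, hf⟩ = 0 ↔ _
  rw [IsLocalRing.residue_eq_zero_iff, ValuationSubring.mem_nonunits_iff_exists_mem_maximalIdeal]
  constructor
  · intro h
    exact ⟨hf, h⟩
  · rintro ⟨_, h⟩
    exact h

theorem red_add {f g : F} (hf : f ∈ V.O) (hg : g ∈ V.O) : V.red (f + g) = V.red f + V.red g :=
  V.redData.red_add hf hg

theorem red_mul {f g : F} (hf : f ∈ V.O) (hg : g ∈ V.O) : V.red (f * g) = V.red f * V.red g :=
  V.redData.red_mul hf hg

theorem red_algebraMap {a : K} (ha : a ∈ A) :
    V.red (algebraMap K F a) =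
      algebraMap (IsLocalRing.ResidueField ↥A) V.Res (IsLocalRing.residue ↥A ⟨a, ha⟩) := by
  rw [V.red_of_mem (V.algebraMap_mem ha)]
  exact V.res_incl ⟨a, ha⟩

theorem red_surjective : Function.Surjective V.red := by
  intro u
  obtain ⟨f, rfl⟩ := V.res_surjective u
  exact ⟨f, V.red_of_mem f.2⟩

/-- `ext`. -/
theorem ext' {V V' : ValOver A F} (h : V.O = V'.O) : V = V' := by
  cases V; cases V'; cases h; rfl

/-- Restriction to an intermediate field `E`. -/
def restrict (E : Type*) [Field E] [Algebra K E] [Algebra E F] [IsScalarTower K E F] :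
    ValOver A E where
  O := V.O.comap (algebraMap E F)
  comap_eq := by
    have h := V.comap_eq
    rw [IsScalarTower.algebraMap_eq K E F] at h
    exact h

/-- Transport by a ring automorphism `σ` of `F` which is semilinear over an automorphism `σ₀` of `K`
preserving `A`:  `σ V = {σ f | f ∈ V}`. -/
def map (σ : F ≃+* F) (σ₀ : K ≃+* K) (hσ : ∀ a, σ (algebraMap K F a) = algebraMap K F (σ₀ a))
    (hA : ∀ a, σ₀ a ∈ A ↔ a ∈ A) : ValOver A F where
  O := V.O.comap (σ.symm : F →+* F)
  comap_eq := by
    ext a
    show σ.symm (algebraMap K F a) ∈ V.O ↔ a ∈ A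
    have h1 : σ.symm (algebraMap K F a) = algebraMap K F (σ₀.symm a) := by
      rw [RingEquiv.symm_apply_eq, hσ, RingEquiv.apply_symm_apply]
    rw [h1, V.algebraMap_mem_iff, ← hA, RingEquiv.apply_symm_apply]

end ValOver

end Fermat.Agent.S36.Val
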