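import Fermat.Agent.S36.Val.Basic

/-!
# S36/Val/ResIndep : consequences of residual independence (pure Mathlib)
-/

set_option autoImplicit false

namespace Fermat.Agent.S36.Val

variable {F : Type*} [Field F]

theorem ResIndep_mem_nonunits_iff (A : ValuationSubring F) (x : F) :
    x ∈ A.nonunits ↔ x = 0 ∨ x⁻¹ ∉ A := by
  rw [ValuationSubring.mem_nonunits_iff, ← ValuationSubring.valuation_le_one_iff]
  by_cases hx : x = 0
  · simp [hx]
  · have hv : A.valuation x ≠ 0 := (Valuation.ne_zero_iff _).mpr hx
    rw [map_inv₀, not_le, one_lt_inv₀ (zero_lt_iff.mpr hv)]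
    simp [hx]

theorem ResIndep_mem_nonunits_comap {E : Type*} [Field E] (f : E →+* F) (O : ValuationSubring F)
    (x : E) : x ∈ (O.comap f).nonunits ↔ f x ∈ O.nonunits := by
  rw [ResIndep_mem_nonunits_iff, ResIndep_mem_nonunits_iff, ValuationSubring.mem_comap, map_inv₀,
    map_eq_zero]

theorem ResIndep_mul_mem_nonunits (A : ValuationSubring F) {x y : F} (hx : x ∈ A.nonunits)
    (hy : y ∈ A) : x * y ∈ A.nonunits := by
  rw [ValuationSubring.mem_nonunits_iff] at hx ⊢
  rw [← ValuationSubring.valuation_le_one_iff] at hy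
  rw [map_mul]
  exact mul_lt_one_of_lt_of_le hx hy

theorem ResIndep_one_notMem_nonunits (A : ValuationSubring F) : (1 : F) ∉ A.nonunits := by
  rw [ValuationSubring.mem_nonunits_iff, map_one]
  exact lt_irrefl _

section ResIndep

variable {E : Type*} [Field E] [Algebra E F] {ι : Type*} [Fintype ι]

variable {OE : ValuationSubring E} {O : ValuationSubring F} {b : ι → F}

/-- PROOF (of `→`).  If some `c i ∉ OE` choose `i₀` with `c i₀` of maximal valuation
(`Finset.exists_max_image`), `d i := c i / c i₀ ∈ OE`, `d i₀ = 1`;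
`∑ d i • b i = (c i₀)⁻¹ • ∑ c i • b i` is a nonunit (product of a nonunit of `OE` and an element of
`O`), contradiction with `h.2`. -/
theorem ResIndep.sum_mem_iff (hO : O.comap (algebraMap E F) = OE) (h : ResIndep OE O b)
    (c : ι → E) : ∑ i, c i • b i ∈ O ↔ ∀ i, c i ∈ OE := by
  constructor
  · intro hs
    by_contra hcon
    push Not at hcon
    obtain ⟨j, hj⟩ := hcon
    obtain ⟨i₀, -, hi₀⟩ := Finset.exists_max_image Finset.univ (fun i => OE.valuation (c i))
      ⟨j, Finset.mem_univ j⟩
    have hj1 : 1 < OE.valuation (c j) := by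
      rw [← not_le, ValuationSubring.valuation_le_one_iff]
      exact hj
    have h1 : 1 < OE.valuation (c i₀) := lt_of_lt_of_le hj1 (hi₀ j (Finset.mem_univ j))
    have hv0 : OE.valuation (c i₀) ≠ 0 := (lt_trans zero_lt_one h1).ne'
    have hc0 : c i₀ ≠ 0 := (Valuation.ne_zero_iff _).mp hv0
    have hinv : (c i₀)⁻¹ ∈ OE.nonunits := by
      rw [ValuationSubring.mem_nonunits_iff, map_inv₀]
      exact inv_lt_one_of_one_lt₀ h1
    have hinv' : algebraMap E F (c i₀)⁻¹ ∈ O.nonunits := by
      rw [← ResIndep_mem_nonunits_comap, hO]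
      exact hinv
    have hd : ∀ i, (c i₀)⁻¹ * c i ∈ OE := by
      intro i
      rw [← ValuationSubring.valuation_le_one_iff, map_mul, map_inv₀,
        inv_mul_le_iff₀ (zero_lt_iff.mpr hv0), mul_one]
      exact hi₀ i (Finset.mem_univ i)
    have hsum : ∑ i, ((c i₀)⁻¹ * c i) • b i ∈ O.nonunits := by
      have : ∑ i, ((c i₀)⁻¹ * c i) • b i = algebraMap E F (c i₀)⁻¹ * ∑ i, c i • b i := by
        rw [Finset.mul_sum]
        refine Finset.sum_congr rfl fun i _ => ?_
        rw [mul_smul, Algebra.smul_def (c i₀)⁻¹]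
      rw [this]
      exact ResIndep_mul_mem_nonunits O hinv' hs
    have := h.2 _ hd hsum i₀
    rw [inv_mul_cancel₀ hc0] at this
    exact ResIndep_one_notMem_nonunits OE this
  · intro hc
    refine sum_mem fun i _ => ?_
    rw [Algebra.smul_def]
    refine O.mul_mem _ _ ?_ (h.1 i)
    rw [← ValuationSubring.mem_comap, hO]
    exact hc i

theorem ResIndep.sum_mem_nonunits_iff (hO : O.comap (algebraMap E F) = OE) (h : ResIndep OE O b)
    (c : ι → E) : ∑ i, c i • b i ∈ O.nonunits ↔ ∀ i, c i ∈ OE.nonunits := by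
  constructor
  · intro hs
    have hsO : ∑ i, c i • b i ∈ O := ValuationSubring.nonunits_subset hs
    exact h.2 c ((h.sum_mem_iff hO c).mp hsO) hs
  · intro hc
    rw [ValuationSubring.mem_nonunits_iff]
    refine Valuation.map_sum_lt _ one_ne_zero fun i _ => ?_
    rw [← ValuationSubring.mem_nonunits_iff, Algebra.smul_def]
    refine ResIndep_mul_mem_nonunits O ?_ (h.1 i)
    rw [← ResIndep_mem_nonunits_comap, hO]
    exact hc i

theorem ResIndep.linearIndependent (hO : O.comap (algebraMap E F) = OE) (h : ResIndep OE O b) :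
    LinearIndependent E b := by
  rw [Fintype.linearIndependent_iff]
  intro g hg j
  by_contra hj
  have hsum : ∑ i, ((g j)⁻¹ * g i) • b i ∈ O.nonunits := by
    have : ∑ i, ((g j)⁻¹ * g i) • b i = (g j)⁻¹ • ∑ i, g i • b i := by
      rw [Finset.smul_sum]
      exact Finset.sum_congr rfl fun i _ => mul_smul _ _ _
    rw [this, hg, smul_zero, ValuationSubring.mem_nonunits_iff, map_zero]
    exact zero_lt_one
  have := (h.sum_mem_nonunits_iff hO _).mp hsum j
  rw [inv_mul_cancel₀ hj] at this
  exact ResIndep_one_notMem_nonunits OE this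

theorem ResIndep.card_le_finrank [FiniteDimensional E F] (hO : O.comap (algebraMap E F) = OE)
    (h : ResIndep OE O b) : Fintype.card ι ≤ Module.finrank E F := by
  exact (h.linearIndependent hO).fintype_card_le_finrank

/-- If moreover `#ι ≥ [F : E]` then `b` spans. -/
theorem ResIndep.span_eq_top [FiniteDimensional E F] (hO : O.comap (algebraMap E F) = OE)
    (h : ResIndep OE O b) (hcard : Module.finrank E F ≤ Fintype.card ι) :
    Submodule.span E (Set.range b) = ⊤ := by
  exact (h.linearIndependent hO).span_eq_top_of_card_eq_finrank'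
    (le_antisymm (h.card_le_finrank hO) hcard)

/-- Uniqueness: two extensions of `OE` for which the same spanning family is residually independent
coincide (both are `{∑ c i • b i | c i ∈ OE}`). -/
theorem ResIndep.eq_of_span {O' : ValuationSubring F} (hO : O.comap (algebraMap E F) = OE)
    (hO' : O'.comap (algebraMap E F) = OE) (h : ResIndep OE O b) (h' : ResIndep OE O' b)
    (hspan : Submodule.span E (Set.range b) = ⊤) : O' = O := by
  ext x
  have hx : x ∈ Submodule.span E (Set.range b) := hspan ▸ Submodule.mem_top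
  obtain ⟨c, rfl⟩ := (Submodule.mem_span_range_iff_exists_fun E).mp hx
  rw [h.sum_mem_iff hO, h'.sum_mem_iff hO']

end ResIndep

end Fermat.Agent.S36.Val
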