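import Fermat.Agent.S36.Val.ResIndep

/-!
# S36/Val/ResTower : residual independence in towers (pure Mathlib)
-/

set_option autoImplicit false

namespace Fermat.Agent.S36.Val

variable {F : Type*} [Field F]

section Tower

variable {E E' : Type*} [Field E] [Field E'] [Algebra E E'] [Algebra E' F] [Algebra E F]
  [IsScalarTower E E' F] {ι κ : Type*} [Fintype ι] [Fintype κ]

/-- regrouping of a double sum. -/
theorem ResTower_sum_eq (a : ι → E') (b : κ → F) (c : ι × κ → E) :
    ∑ ij : ι × κ, c ij • (algebraMap E' F (a ij.1) * b ij.2) =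
      ∑ j, (∑ i, c (i, j) • a i) • b j := by
  rw [Fintype.sum_prod_type_right]
  refine Finset.sum_congr rfl fun j _ => ?_
  rw [Finset.sum_smul]
  refine Finset.sum_congr rfl fun i _ => ?_
  rw [smul_assoc, Algebra.smul_def (a i) (b j)]

/-- Transitivity. -/
theorem ResIndep.mul {OE : ValuationSubring E} {OE' : ValuationSubring E'} {O : ValuationSubring F}
    {a : ι → E'} {b : κ → F} (hE' : OE'.comap (algebraMap E E') = OE)
    (hO : O.comap (algebraMap E' F) = OE') (ha : ResIndep OE OE' a) (hb : ResIndep OE' O b) :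
    ResIndep OE O (fun ij : ι × κ => algebraMap E' F (a ij.1) * b ij.2) := by
  refine ⟨fun ij => O.mul_mem _ _ ?_ (hb.1 ij.2), fun c hc hsum => ?_⟩
  · have := ha.1 ij.1
    rw [← hO] at this
    exact this
  · rw [ResTower_sum_eq] at hsum
    have hd : ∀ j, ∑ i, c (i, j) • a i ∈ OE' := by
      intro j
      refine OE'.sum_mem fun i _ => ?_
      rw [Algebra.smul_def]
      refine OE'.mul_mem _ _ ?_ (ha.1 i)
      have := hc (i, j)
      rw [← hE'] at this
      exact this
    have h1 := hb.2 _ hd hsum
    rintro ⟨i, j⟩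
    exact ha.2 (fun i => c (i, j)) (fun i => hc (i, j)) (h1 j) i

/-- Converse of transitivity, first factor. -/
theorem ResIndep.of_mul_left {OE : ValuationSubring E} {O : ValuationSubring F}
    {a : ι → E'} {b : κ → F} (j₀ : κ) (hj₀ : b j₀ = 1)
    (h : ResIndep OE O (fun ij : ι × κ => algebraMap E' F (a ij.1) * b ij.2)) :
    ResIndep OE (O.comap (algebraMap E' F)) a := by
  classical
  refine ⟨fun i => ?_, fun c hc hsum => ?_⟩
  · have := h.1 (i, j₀)
    simp only [hj₀, mul_one] at this
    exact this
  · rw [mem_nonunits_comap_iff] at hsum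
    have h1 : ∑ ij : ι × κ, (if ij.2 = j₀ then c ij.1 else 0) •
        (algebraMap E' F (a ij.1) * b ij.2) = algebraMap E' F (∑ i, c i • a i) := by
      rw [ResTower_sum_eq a b (fun ij : ι × κ => if ij.2 = j₀ then c ij.1 else 0),
        Finset.sum_eq_single j₀]
      · simp only [if_true, hj₀, Algebra.smul_def (∑ i, c i • a i) (1 : F), mul_one]
      · intro j _ hj
        simp only [if_neg hj, zero_smul, Finset.sum_const_zero]
      · intro hj
        exact absurd (Finset.mem_univ j₀) hj
    have h2 := h.2 (fun ij : ι × κ => if ij.2 = j₀ then c ij.1 else 0) (fun ij => by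
      split_ifs
      · exact hc ij.1
      · exact OE.zero_mem) (by rw [h1]; exact hsum)
    intro i
    have := h2 (i, j₀)
    simpa using this

/-- Converse of transitivity, second factor (`a` spans `E'` over `E`). -/
theorem ResIndep.of_mul_right {OE : ValuationSubring E} {O : ValuationSubring F}
    {a : ι → E'} {b : κ → F} (j₀ : κ) (hj₀ : b j₀ = 1) (i₀ : ι) (hi₀ : a i₀ = 1)
    (hO : O.comap (algebraMap E F) = OE)
    (hspan : Submodule.span E (Set.range a) = ⊤)
    (h : ResIndep OE O (fun ij : ι × κ => algebraMap E' F (a ij.1) * b ij.2)) :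
    ResIndep (O.comap (algebraMap E' F)) O b := by
  have ha : ResIndep OE (O.comap (algebraMap E' F)) a := ResIndep.of_mul_left j₀ hj₀ h
  have hO' : (O.comap (algebraMap E' F)).comap (algebraMap E E') = OE := by
    rw [ValuationSubring.comap_comap, ← IsScalarTower.algebraMap_eq, hO]
  refine ⟨fun j => ?_, fun c hc hsum => ?_⟩
  · have := h.1 (i₀, j)
    simp only [hi₀, map_one, one_mul] at this
    exact this
  · have hγ : ∀ j, ∃ γ : ι → E, ∑ i, γ i • a i = c j := fun j =>
      (Submodule.mem_span_range_iff_exists_fun E).mp (by rw [hspan]; trivial)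
    choose γ hγ using hγ
    have h1 : ∀ j i, γ j i ∈ OE := fun j =>
      (ha.sum_mem_iff hO' (γ j)).mp (by rw [hγ j]; exact hc j)
    have h2 : ∑ ij : ι × κ, γ ij.2 ij.1 • (algebraMap E' F (a ij.1) * b ij.2) =
        ∑ j, c j • b j := by
      rw [ResTower_sum_eq a b (fun ij : ι × κ => γ ij.2 ij.1)]
      exact Finset.sum_congr rfl fun j _ => by rw [hγ j]
    have h3 := h.2 (fun ij : ι × κ => γ ij.2 ij.1) (fun ij => h1 ij.2 ij.1)
      (by rw [h2]; exact hsum)
    intro j
    rw [← hγ j]
    exact (ha.sum_mem_nonunits_iff hO' (γ j)).mpr fun i => h3 (i, j)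

end Tower

end Fermat.Agent.S36.Val
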